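import Mathlib

/-!
# Common independent sets of two rank functions

If no subset `U` of the ground set has `r₁ U + r₂ Uᶜ` small, then deleting or contracting an
element which is a loop in neither keeps this property: two bad sets would be uncrossed by
submodularity.
-/

set_option autoImplicit false

noncomputable section

namespace FA.MatroidIntersection

open Finset

variable {α : Type*} [DecidableEq α]

/-- The axioms of a rank function. -/
structure IsRankFn (r : Finset α → ℕ) : Prop where
  empty : r ∅ = 0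
  mono : ∀ ⦃X Y⦄, X ⊆ Y → r X ≤ r Y
  insert_le : ∀ (X : Finset α) e, r (insert e X) ≤ r X + 1
  submod : ∀ X Y, r (X ∪ Y) + r (X ∩ Y) ≤ r X + r Y

theorem IsRankFn.union_le {r : Finset α → ℕ} (hr : IsRankFn r) {C U : Finset α}
    (h : ∀ e ∈ U, r (insert e C) ≤ r C) : r (C ∪ U) ≤ r C := by
  induction U using Finset.induction with
  | empty => simp
  | insert a U _ ih =>
    have h1 := hr.submod (C ∪ U) (insert a C)
    have h2 := hr.mono (show C ⊆ (C ∪ U) ∩ insert a C from
      subset_inter subset_union_left (subset_insert _ _))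
    have h3 := h a (mem_insert_self _ _)
    have h4 := ih fun e he => h e (mem_insert_of_mem he)
    have e : (C ∪ U) ∪ insert a C = C ∪ insert a U := by ext; simp; tauto
    rw [e] at h1
    omega

variable {r₁ r₂ : Finset α → ℕ}

/-- The intersection theorem, after contracting `C`. -/
theorem exists_common (h₁ : IsRankFn r₁) (h₂ : IsRankFn r₂) (S : Finset α) :
    ∀ (C : Finset α) (k : ℕ),
      (∀ U ⊆ S, k + r₁ C + r₂ C ≤ r₁ (C ∪ U) + r₂ (C ∪ (S \ U))) →
      ∃ I ⊆ S, k ≤ #I ∧ r₁ (C ∪ I) = r₁ C + #I ∧ r₂ (C ∪ I) = r₂ C + #I := by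
  induction S using Finset.strongInduction with
  | _ S ih =>
    intro C k hk
    rcases Nat.eq_zero_or_pos k with rfl | hkpos
    · exact ⟨∅, empty_subset _, by simp⟩
    obtain ⟨e, heS, he₁, he₂⟩ : ∃ e ∈ S, r₁ C < r₁ (insert e C) ∧ r₂ C < r₂ (insert e C) := by
      by_contra hcon
      push Not at hcon
      have h := hk (S.filter fun e => r₁ (insert e C) ≤ r₁ C) (filter_subset _ _)
      have a := h₁.union_le (C := C) (U := S.filter fun e => r₁ (insert e C) ≤ r₁ C)
        fun e he => (mem_filter.1 he).2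
      have b := h₂.union_le (C := C) (U := S \ S.filter fun e => r₁ (insert e C) ≤ r₁ C)
        fun e he => by
          simp only [mem_sdiff, mem_filter, not_and, not_le] at he
          exact hcon e he.1 (he.2 he.1)
      omega
    have e₁ := h₁.insert_le C e
    have e₂ := h₂.insert_le C e
    have hss : S.erase e ⊂ S := erase_ssubset heS
    by_cases hdel : ∀ U ⊆ S.erase e,
        k + r₁ C + r₂ C ≤ r₁ (C ∪ U) + r₂ (C ∪ (S.erase e \ U))
    · obtain ⟨I, hI, h⟩ := ih _ hss C k hdel
      exact ⟨I, hI.trans (erase_subset _ _), h⟩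
    by_cases hcon : ∀ U ⊆ S.erase e, k - 1 + r₁ (insert e C) + r₂ (insert e C) ≤
        r₁ (insert e C ∪ U) + r₂ (insert e C ∪ (S.erase e \ U))
    · obtain ⟨I, hI, hcard, hr₁, hr₂⟩ := ih _ hss (insert e C) (k - 1) hcon
      have heI : e ∉ I := fun h => notMem_erase e S (hI h)
      have hun : C ∪ insert e I = insert e C ∪ I := by rw [union_insert, insert_union]
      refine ⟨insert e I, insert_subset heS (hI.trans (erase_subset _ _)), ?_⟩
      rw [card_insert_of_notMem heI, hun, hr₁, hr₂]
      omega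
    exfalso
    push Not at hdel hcon
    obtain ⟨U, hU, hU'⟩ := hdel
    obtain ⟨W, hW, hW'⟩ := hcon
    have s₁ := h₁.submod (C ∪ U) (insert e C ∪ W)
    have s₂ := h₂.submod (C ∪ (S.erase e \ U)) (insert e C ∪ (S.erase e \ W))
    have m₁ : r₁ (C ∪ (U ∩ W)) ≤ r₁ ((C ∪ U) ∩ (insert e C ∪ W)) :=
      h₁.mono fun x => by simp; tauto
    have m₁' : r₁ (C ∪ insert e (U ∪ W)) ≤ r₁ (C ∪ U ∪ (insert e C ∪ W)) :=
      h₁.mono fun x => by simp; tauto
    have m₂ : r₂ (C ∪ (S \ insert e (U ∪ W))) ≤
        r₂ ((C ∪ (S.erase e \ U)) ∩ (insert e C ∪ (S.erase e \ W))) :=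
      h₂.mono fun x => by simp; tauto
    have m₂' : r₂ (C ∪ (S \ (U ∩ W))) ≤
        r₂ (C ∪ (S.erase e \ U) ∪ (insert e C ∪ (S.erase e \ W))) :=
      h₂.mono fun x => by simp; tauto
    have k₁ := hk (U ∩ W) (inter_subset_left.trans (hU.trans (erase_subset _ _)))
    have k₂ := hk (insert e (U ∪ W)) (insert_subset heS
      ((union_subset hU hW).trans (erase_subset _ _)))
    omega

/-- The intersection theorem for rank functions. -/
theorem exists_common_of_le (h₁ : IsRankFn r₁) (h₂ : IsRankFn r₂) (S : Finset α) {k : ℕ}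
    (hk : ∀ U ⊆ S, k ≤ r₁ U + r₂ (S \ U)) :
    ∃ I ⊆ S, k ≤ #I ∧ r₁ I = #I ∧ r₂ I = #I := by
  obtain ⟨I, hI, h1, h2, h3⟩ := exists_common h₁ h₂ S ∅ k fun U hU => by
    simpa [h₁.empty, h₂.empty] using hk U hU
  exact ⟨I, hI, h1, by simpa [h₁.empty] using h2, by simpa [h₂.empty] using h3⟩

/-- The rank of a finite set in a matroid. -/
def rankOf (M : Matroid α) (X : Finset α) : ℕ := (M.eRk (X : Set α)).toNat

omit [DecidableEq α] in
theorem coe_rankOf (M : Matroid α) (X : Finset α) : (rankOf M X : ℕ∞) = M.eRk (X : Set α) :=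
  ENat.natCast_toNat (ne_top_of_le_ne_top (by simp [Set.encard_coe_eq_coe_finsetCard])
    (M.eRk_le_encard _))

omit [DecidableEq α] in
theorem indep_iff_rankOf (M : Matroid α) (X : Finset α) :
    M.Indep (X : Set α) ↔ rankOf M X = #X := by
  rw [Matroid.indep_iff_eRk_eq_encard_of_finite X.finite_toSet, ← coe_rankOf,
    Set.encard_coe_eq_coe_finsetCard, Nat.cast_inj]

theorem isRankFn_rankOf (M : Matroid α) : IsRankFn (rankOf M) where
  empty := by simp [rankOf]
  mono X Y h := by
    rw [← ENat.natCast_le_natCast, coe_rankOf, coe_rankOf]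
    exact M.eRk_mono (coe_subset.2 h)
  insert_le X e := by
    rw [← ENat.natCast_le_natCast, Nat.cast_add, coe_rankOf, coe_rankOf, coe_insert, Nat.cast_one]
    exact M.eRk_insert_le_add_one _ _
  submod X Y := by
    rw [← ENat.natCast_le_natCast, Nat.cast_add, Nat.cast_add, coe_rankOf, coe_rankOf, coe_rankOf,
      coe_rankOf, coe_union, coe_inter, add_comm]
    exact M.eRk_inter_add_eRk_union_le _ _

/-- The number of classes met is a rank function. -/
theorem isRankFn_image {β : Type*} [DecidableEq β] {r : Finset β → ℕ} (hr : IsRankFn r)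
    (f : α → β) : IsRankFn fun X : Finset α => r (X.image f) where
  empty := by simp [hr.empty]
  mono X Y h := hr.mono (image_subset_image h)
  insert_le X e := by simpa [image_insert] using hr.insert_le (X.image f) (f e)
  submod X Y := by
    have h := hr.submod (X.image f) (Y.image f)
    have h' := hr.mono (image_inter_subset f X Y)
    simp only [image_union]
    omega

omit [DecidableEq α] in
theorem isRankFn_card [DecidableEq α] : IsRankFn (card : Finset α → ℕ) where
  empty := card_empty
  mono _ _ h := card_le_card h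
  insert_le X e := card_insert_le e X
  submod X Y := le_of_eq (card_union_add_card_inter X Y)

/-- Rado's theorem. -/
theorem exists_indep_transversal {ι : Type*} [Fintype ι] [DecidableEq ι] (M : Matroid α)
    (A : ι → Finset α) (h : ∀ J : Finset ι, #J ≤ rankOf M (J.biUnion A)) :
    ∃ f : ι → α, Function.Injective f ∧ (∀ i, f i ∈ A i) ∧ M.Indep (Set.range f) := by
  set P : Finset (ι × α) := univ.biUnion fun i => (A i).image (Prod.mk i)
  have hP : ∀ p : ι × α, p ∈ P ↔ p.2 ∈ A p.1 := fun ⟨i, a⟩ => by simp [P]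
  obtain ⟨I, hI, hcard, h1, h2⟩ := exists_common_of_le (isRankFn_image isRankFn_card Prod.fst)
    (isRankFn_image (isRankFn_rankOf M) Prod.snd) P (k := Fintype.card ι) fun U _ => by
      have hsub : (univ \ U.image Prod.fst).biUnion A ⊆ (P \ U).image Prod.snd := by
        intro a ha
        simp only [mem_biUnion, mem_sdiff, mem_univ, true_and, mem_image, not_exists] at ha
        obtain ⟨i, hi, ha⟩ := ha
        exact mem_image.2 ⟨(i, a), mem_sdiff.2 ⟨(hP _).2 ha, fun hu => hi (i, a) ⟨hu, rfl⟩⟩, rfl⟩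
      have := (h _).trans ((isRankFn_rankOf M).mono hsub)
      rw [card_univ_sdiff] at this
      have := card_le_univ (U.image Prod.fst)
      omega
  have hinj : Set.InjOn Prod.fst (I : Set (ι × α)) := card_image_iff.1 h1
  have himg : I.image Prod.fst = univ := eq_univ_of_card _
    (le_antisymm (card_le_univ _) (by omega))
  have hex : ∀ i, ∃ a, (i, a) ∈ I := fun i => by
    obtain ⟨p, hp, rfl⟩ := mem_image.1 (himg ▸ mem_univ i : i ∈ I.image Prod.fst)
    exact ⟨p.2, hp⟩
  choose f hf using hex
  have hle := (M.eRk_le_encard ((I.image Prod.snd : Finset α) : Set α))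
  rw [← coe_rankOf, h2, Set.encard_coe_eq_coe_finsetCard, Nat.cast_le] at hle
  have hinj₂ : Set.InjOn Prod.snd (I : Set (ι × α)) :=
    card_image_iff.1 (le_antisymm card_image_le hle)
  refine ⟨f, fun i j he => congrArg Prod.fst (hinj₂ (hf i) (hf j) he), fun i => ?_, ?_⟩
  · exact (hP (i, f i)).1 (hI (hf i))
  · have : Set.range f = ((I.image Prod.snd : Finset α) : Set α) := by
      ext a
      simp only [Set.mem_range, coe_image, Set.mem_image, mem_coe]
      refine ⟨fun ⟨i, hi⟩ => ⟨(i, f i), hf i, hi⟩, fun ⟨p, hp, hpa⟩ => ⟨p.1, ?_⟩⟩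
      rw [← hpa]
      exact congrArg Prod.snd (hinj (hf p.1) hp rfl)
    rw [this, indep_iff_rankOf, h2, le_antisymm card_image_le hle]

end FA.MatroidIntersection
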